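/-
LR node (v*) NON-EISENSTEIN, file (1): the pure group theory / linear algebra.

`V` a two-dimensional vector space over a field `F`, `ρ : G →* Module.End F V`.

* `lrvg_fix_det`         : an endomorphism with a nonzero fixed vector has `det (M - 1) = 0` in
                           every basis (2 x 2 form);
* `lrvg_fixed_or_coinv`  : if every element of a subgroup `H` has a nonzero fixed vector then
                           either `H` has a nonzero common fixed vector or `(ρ h - 1) V` lies in a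
                           proper subspace independent of `h ∈ H`;
* `lrvg_exists_stable_line` : (`F = ZMod p`) `H` normal with abelian quotient, every element of
                           `H` and every element of a coset `c · Hp` (`g ^ (p - 1) ∈ Hp` for all
                           `g`) has a nonzero fixed vector  ⟹  there is a `G`-stable line.
Owner: helper22.  Prefix `lrvg_`.
-/
import Mathlib

set_option autoImplicit false

namespace Fermat.Agent.LR

open Module LinearMap

section basis

variable {F : Type*} [Field F] {V : Type*} [AddCommGroup V] [Module F V]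

/-- A pair of linearly independent vectors in a plane is a basis. -/
theorem lrvg_exists_basis (hV : finrank F V = 2) (e₁ e₂ : V)
    (hli : ∀ α β : F, α • e₁ + β • e₂ = 0 → α = 0 ∧ β = 0) :
    ∃ b : Basis (Fin 2) F V, b 0 = e₁ ∧ b 1 = e₂ := by
  have h1 : LinearIndependent F ![e₁, e₂] := LinearIndependent.pair_iff.mpr hli
  have h2 : Fintype.card (Fin 2) = finrank F V := by rw [hV]; rfl
  refine ⟨basisOfLinearIndependentOfCardEqFinrank h1 h2, ?_, ?_⟩
  · rw [coe_basisOfLinearIndependentOfCardEqFinrank]; rfl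
  · rw [coe_basisOfLinearIndependentOfCardEqFinrank]; rfl

/-- Expansion of a vector in a basis indexed by `Fin 2`. -/
theorem lrvg_expand (b : Basis (Fin 2) F V) (v : V) :
    v = b.repr v 0 • b 0 + b.repr v 1 • b 1 := by
  conv_lhs => rw [← b.sum_repr v]
  rw [Fin.sum_univ_two]

/-- Coordinates of an explicit combination. -/
theorem lrvg_repr_comb (b : Basis (Fin 2) F V) (x y : F) :
    b.repr (x • b 0 + y • b 1) 0 = x ∧ b.repr (x • b 0 + y • b 1) 1 = y := by
  constructor <;> simp

/-- An endomorphism with a nonzero fixed vector: `det (M - 1) = 0`, in 2 x 2 form. -/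
theorem lrvg_fix_det (b : Basis (Fin 2) F V) (f : Module.End F V)
    (hf : ∃ v : V, v ≠ 0 ∧ f v = v) :
    (toMatrix b b f 0 0 - 1) * (toMatrix b b f 1 1 - 1) -
      toMatrix b b f 0 1 * toMatrix b b f 1 0 = 0 := by
  obtain ⟨v, hv0, hv⟩ := hf
  have h1 : (toMatrix b b f - 1).det = 0 := by
    rw [← Matrix.exists_mulVec_eq_zero_iff]
    refine ⟨fun i => b.repr v i, ?_, ?_⟩
    · intro h
      apply hv0
      apply b.repr.injective
      ext i
      simpa using congrFun h i
    · rw [Matrix.sub_mulVec, Matrix.one_mulVec, toMatrix_mulVec_repr, hv, sub_self]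
  rw [Matrix.det_fin_two] at h1
  simpa using h1

/-- `f v - v ∈ L` for all `v` as soon as it holds on a basis. -/
theorem lrvg_sub_mem_of_basis (b : Basis (Fin 2) F V) (f : Module.End F V) (L : Submodule F V)
    (h0 : f (b 0) - b 0 ∈ L) (h1 : f (b 1) - b 1 ∈ L) (v : V) : f v - v ∈ L := by
  have hv := lrvg_expand b v
  have : f v - v = b.repr v 0 • (f (b 0) - b 0) + b.repr v 1 • (f (b 1) - b 1) := by
    conv_lhs => rw [hv]
    rw [map_add, map_smul, map_smul]
    module
  rw [this]
  exact L.add_mem (L.smul_mem _ h0) (L.smul_mem _ h1)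

/-- The image of a basis vector in coordinates. -/
theorem lrvg_apply_basis (b : Basis (Fin 2) F V) (f : Module.End F V) (j : Fin 2) :
    f (b j) = toMatrix b b f 0 j • b 0 + toMatrix b b f 1 j • b 1 := by
  rw [toMatrix_apply, toMatrix_apply]
  exact lrvg_expand b (f (b j))

/-- The line spanned by one basis vector is proper. -/
theorem lrvg_span_ne_top (b : Basis (Fin 2) F V) (i : Fin 2) :
    (Submodule.span F {b i} : Submodule F V) ≠ ⊤ := by
  intro h
  have hj : ∃ j : Fin 2, j ≠ i := by
    fin_cases i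
    · exact ⟨1, by decide⟩
    · exact ⟨0, by decide⟩
  obtain ⟨j, hj⟩ := hj
  have h1 : b j ∈ (Submodule.span F {b i} : Submodule F V) := by rw [h]; trivial
  obtain ⟨c, hc⟩ := Submodule.mem_span_singleton.mp h1
  have h2 := congrArg (fun v => b.repr v j) hc
  simp [hj.symm] at h2

end basis

section group

variable {F : Type*} [Field F] {V : Type*} [AddCommGroup V] [Module F V]
variable {G : Type*} [Group G] (ρ : G →* Module.End F V)

/-- A group is not the union of two proper subgroups, in the form needed here. -/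
theorem lrvg_union (H : Subgroup G) (e : V) (L : Submodule F V)
    (h : ∀ g ∈ H, ρ g e = e ∨ ∀ v : V, ρ g v - v ∈ L) :
    (∀ g ∈ H, ρ g e = e) ∨ (∀ g ∈ H, ∀ v : V, ρ g v - v ∈ L) := by
  by_contra hcon
  rw [not_or] at hcon
  obtain ⟨h1, h2⟩ := hcon
  push Not at h1 h2
  obtain ⟨x, hx, hxe⟩ := h1
  obtain ⟨y, hy, v₀, hyv⟩ := h2
  have hx2 : ∀ v : V, ρ x v - v ∈ L := (h x hx).resolve_left hxe
  have hy1 : ρ y e = e := by
    rcases h y hy with h' | h'
    · exact h'
    · exact absurd (h' v₀) hyv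
  rcases h (x * y) (H.mul_mem hx hy) with h' | h'
  · apply hxe
    rw [map_mul, Module.End.mul_apply, hy1] at h'
    exact h'
  · apply hyv
    have h3 := h' v₀
    rw [map_mul, Module.End.mul_apply] at h3
    have h4 := hx2 (ρ y v₀)
    have : ρ y v₀ - v₀ = (ρ x (ρ y v₀) - v₀) - (ρ x (ρ y v₀) - ρ y v₀) := by abel
    rw [this]
    exact L.sub_mem h3 h4

/-- **Lemma A'**: if every element of `H` has a nonzero fixed vector on the plane `V`, then either
`H` has a nonzero common fixed vector, or `(ρ h - 1) V` lies in one proper subspace for all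
`h ∈ H`. -/
theorem lrvg_fixed_or_coinv (hV : finrank F V = 2) (H : Subgroup G)
    (F1 : ∀ h ∈ H, ∃ v : V, v ≠ 0 ∧ ρ h v = v) :
    (∃ v : V, v ≠ 0 ∧ ∀ h ∈ H, ρ h v = v) ∨
      (∃ L : Submodule F V, L ≠ ⊤ ∧ ∀ h ∈ H, ∀ v : V, ρ h v - v ∈ L) := by
  classical
  have : Nontrivial V := Module.nontrivial_of_finrank_pos (R := F) (by rw [hV]; norm_num)
  by_cases htriv : ∀ h ∈ H, ρ h = 1
  · left
    obtain ⟨v, hv⟩ := exists_ne (0 : V)
    exact ⟨v, hv, fun h hh => by rw [htriv h hh]; rfl⟩
  push Not at htriv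
  obtain ⟨h₀, hh₀, hne⟩ := htriv
  obtain ⟨e₁, he₁0, he₁⟩ := F1 h₀ hh₀
  -- a vector moved by `h₀`
  obtain ⟨e₂', he₂'⟩ : ∃ v : V, ρ h₀ v - v ≠ 0 := by
    by_contra hcon
    push Not at hcon
    apply hne
    ext v
    exact sub_eq_zero.mp (hcon v)
  set w : V := ρ h₀ e₂' - e₂' with hw
  -- the first basis
  have hli' : ∀ α β : F, α • e₁ + β • e₂' = 0 → α = 0 ∧ β = 0 := by
    intro α β h
    have h1 : ρ h₀ (α • e₁ + β • e₂') - (α • e₁ + β • e₂') = β • w := by
      rw [map_add, map_smul, map_smul, he₁, hw]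
      module
    rw [h, map_zero, sub_zero] at h1
    have hβ : β = 0 := by
      rcases smul_eq_zero.mp h1.symm with h2 | h2
      · exact h2
      · exact absurd h2 he₂'
    rw [hβ, zero_smul, add_zero] at h
    rcases smul_eq_zero.mp h with h2 | h2
    · exact ⟨h2, hβ⟩
    · exact absurd h2 he₁0
  obtain ⟨b', hb'0, hb'1⟩ := lrvg_exists_basis hV e₁ e₂' hli'
  set x : F := b'.repr w 0 with hx
  set y : F := b'.repr w 1 with hy
  have hwxy : w = x • e₁ + y • e₂' := by
    have := lrvg_expand b' w
    rwa [hb'0, hb'1] at this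
  -- the adapted basis
  obtain ⟨b, β₀, d₀, hb0, hb1, hcase⟩ : ∃ (b : Basis (Fin 2) F V) (β₀ d₀ : F),
      ρ h₀ (b 0) = b 0 ∧ ρ h₀ (b 1) = β₀ • b 0 + d₀ • b 1 ∧
        ((d₀ = 1 ∧ β₀ ≠ 0) ∨ (d₀ ≠ 1 ∧ β₀ = 0)) := by
    by_cases hy0 : y = 0
    · refine ⟨b', x, 1, by rw [hb'0]; exact he₁, ?_, Or.inl ⟨rfl, ?_⟩⟩
      · rw [hb'0, hb'1, one_smul]
        have : ρ h₀ e₂' = w + e₂' := by rw [hw]; abel
        rw [this, hwxy, hy0, zero_smul, add_zero]
      · intro hx0
        apply he₂'
        rw [hwxy, hx0, hy0, zero_smul, zero_smul, add_zero]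
    · have hNw : ρ h₀ w - w = y • w := by
        conv_lhs => rw [hwxy]
        rw [map_add, map_smul, map_smul, he₁]
        have : ρ h₀ e₂' = w + e₂' := by rw [hw]; abel
        rw [this]
        module
      have hli : ∀ α β : F, α • e₁ + β • w = 0 → α = 0 ∧ β = 0 := by
        intro α β h
        have h1 : ρ h₀ (α • e₁ + β • w) - (α • e₁ + β • w) = (β * y) • w := by
          rw [map_add, map_smul, map_smul, he₁]
          have : ρ h₀ w = y • w + w := by rw [← hNw]; abel
          rw [this]
          module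
        rw [h, map_zero, sub_zero] at h1
        have hβ : β = 0 := by
          rcases smul_eq_zero.mp h1.symm with h2 | h2
          · rcases mul_eq_zero.mp h2 with h3 | h3
            · exact h3
            · exact absurd h3 hy0
          · exact absurd h2 he₂'
        rw [hβ, zero_smul, add_zero] at h
        rcases smul_eq_zero.mp h with h2 | h2
        · exact ⟨h2, hβ⟩
        · exact absurd h2 he₁0
      obtain ⟨b, hb0, hb1⟩ := lrvg_exists_basis hV e₁ w hli
      refine ⟨b, 0, 1 + y, by rw [hb0]; exact he₁, ?_, Or.inr ⟨?_, rfl⟩⟩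
      · rw [hb0, hb1, zero_smul, zero_add]
        have : ρ h₀ w = y • w + w := by rw [← hNw]; abel
        rw [this]
        module
      · intro h
        apply hy0
        linear_combination h
  -- the matrix of `h₀`
  set M₀ := toMatrix b b (ρ h₀) with hM₀
  have hM00 : M₀ 0 0 = 1 := by
    rw [hM₀, toMatrix_apply, hb0]; simp
  have hM10 : M₀ 1 0 = 0 := by
    rw [hM₀, toMatrix_apply, hb0]; simp
  have hM01 : M₀ 0 1 = β₀ := by
    rw [hM₀, toMatrix_apply, hb1]; exact (lrvg_repr_comb b β₀ d₀).1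
  have hM11 : M₀ 1 1 = d₀ := by
    rw [hM₀, toMatrix_apply, hb1]; exact (lrvg_repr_comb b β₀ d₀).2
  -- the key relations
  have key : ∀ h' ∈ H, (toMatrix b b (ρ h') 0 0 - 1) * (toMatrix b b (ρ h') 1 1 - 1) -
        toMatrix b b (ρ h') 0 1 * toMatrix b b (ρ h') 1 0 = 0 ∧
      (toMatrix b b (ρ h') 0 0 - 1) * (d₀ - 1) = β₀ * toMatrix b b (ρ h') 1 0 := by
    intro h' hh'
    have h1 := lrvg_fix_det b (ρ h') (F1 h' hh')
    have h2 := lrvg_fix_det b (ρ (h₀ * h')) (F1 _ (H.mul_mem hh₀ hh'))
    rw [map_mul, toMatrix_mul, ← hM₀] at h2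
    simp only [Matrix.mul_apply, Fin.sum_univ_two, hM00, hM10, hM01, hM11] at h2
    refine ⟨h1, ?_⟩
    linear_combination h2 - d₀ * h1
  rcases hcase with ⟨hd, hβ⟩ | ⟨hd, hβ⟩
  · -- unipotent case
    have hall : ∀ g ∈ H, ρ g (b 0) = b 0 ∨ ∀ v : V, ρ g v - v ∈ Submodule.span F {b 0} := by
      intro g hg
      obtain ⟨k1, k2⟩ := key g hg
      have hc : toMatrix b b (ρ g) 1 0 = 0 := by
        rw [hd, sub_self, mul_zero] at k2
        rcases mul_eq_zero.mp k2.symm with h | h
        · exact absurd h hβ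
        · exact h
      rw [hc, mul_zero, sub_zero] at k1
      rcases mul_eq_zero.mp k1 with h | h
      · left
        rw [lrvg_apply_basis b (ρ g) 0, hc, zero_smul, add_zero, sub_eq_zero.mp h, one_smul]
      · right
        apply lrvg_sub_mem_of_basis b
        · rw [lrvg_apply_basis b (ρ g) 0, hc, zero_smul, add_zero]
          have : toMatrix b b (ρ g) 0 0 • b 0 - b 0 = (toMatrix b b (ρ g) 0 0 - 1) • b 0 := by
            module
          rw [this]
          exact Submodule.smul_mem _ _ (Submodule.mem_span_singleton_self _)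
        · rw [lrvg_apply_basis b (ρ g) 1, sub_eq_zero.mp h, one_smul, add_sub_cancel_right]
          exact Submodule.smul_mem _ _ (Submodule.mem_span_singleton_self _)
    rcases lrvg_union ρ H (b 0) _ hall with h | h
    · exact Or.inl ⟨b 0, b.ne_zero 0, h⟩
    · exact Or.inr ⟨_, lrvg_span_ne_top b 0, h⟩
  · -- semisimple case
    have hall : ∀ g ∈ H, ρ g (b 0) = b 0 ∨ ∀ v : V, ρ g v - v ∈ Submodule.span F {b 1} := by
      intro g hg
      obtain ⟨k1, k2⟩ := key g hg
      have ha : toMatrix b b (ρ g) 0 0 = 1 := by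
        rw [hβ, zero_mul] at k2
        rcases mul_eq_zero.mp k2 with h | h
        · exact sub_eq_zero.mp h
        · exact absurd (sub_eq_zero.mp h) hd
      rw [ha, sub_self, zero_mul, zero_sub, neg_eq_zero] at k1
      rcases mul_eq_zero.mp k1 with h | h
      · right
        apply lrvg_sub_mem_of_basis b
        · rw [lrvg_apply_basis b (ρ g) 0, ha, one_smul, add_sub_cancel_left]
          exact Submodule.smul_mem _ _ (Submodule.mem_span_singleton_self _)
        · rw [lrvg_apply_basis b (ρ g) 1, h, zero_smul, zero_add]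
          have : toMatrix b b (ρ g) 1 1 • b 1 - b 1 = (toMatrix b b (ρ g) 1 1 - 1) • b 1 := by
            module
          rw [this]
          exact Submodule.smul_mem _ _ (Submodule.mem_span_singleton_self _)
      · left
        rw [lrvg_apply_basis b (ρ g) 0, ha, h, one_smul, zero_smul, add_zero]
    rcases lrvg_union ρ H (b 0) _ hall with h | h
    · exact Or.inl ⟨b 0, b.ne_zero 0, h⟩
    · exact Or.inr ⟨_, lrvg_span_ne_top b 1, h⟩

end group

section irreducible

variable {F : Type*} [Field F] {V : Type*} [AddCommGroup V] [Module F V]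
variable {G : Type*} [Group G] (ρ : G →* Module.End F V)

/-- **Lemma C'**: for an irreducible action, an endomorphism commuting with the group and killing
a nonzero vector is zero. -/
theorem lrvg_eq_zero_of_ker
    (hirr : ∀ L : Submodule F V, (∀ g : G, ∀ v ∈ L, ρ g v ∈ L) → L = ⊥ ∨ L = ⊤)
    (r : Module.End F V) (hcomm : ∀ g : G, r * ρ g = ρ g * r)
    (hker : ∃ v : V, v ≠ 0 ∧ r v = 0) : r = 0 := by
  obtain ⟨v, hv0, hv⟩ := hker
  have hst : ∀ g : G, ∀ u ∈ LinearMap.ker r, ρ g u ∈ LinearMap.ker r := by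
    intro g u hu
    rw [LinearMap.mem_ker] at hu ⊢
    have := congrArg (fun f : Module.End F V => f u) (hcomm g)
    simp only [Module.End.mul_apply] at this
    rw [this, hu, map_zero]
  rcases hirr _ hst with h | h
  · exfalso
    apply hv0
    have : v ∈ LinearMap.ker r := LinearMap.mem_ker.mpr hv
    rw [h] at this
    exact (Submodule.mem_bot F).mp this
  · exact LinearMap.ker_eq_top.mp h

/-- A normal subgroup all of whose elements have a nonzero fixed vector acts trivially on an
irreducible plane. -/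
theorem lrvg_trivial_of_fixed (hV : finrank F V = 2)
    (hirr : ∀ L : Submodule F V, (∀ g : G, ∀ v ∈ L, ρ g v ∈ L) → L = ⊥ ∨ L = ⊤)
    (H : Subgroup G) [hH : H.Normal] (F1 : ∀ h ∈ H, ∃ v : V, v ≠ 0 ∧ ρ h v = v) :
    ∀ h ∈ H, ρ h = 1 := by
  -- the fixed space
  let VH : Submodule F V :=
    { carrier := {v | ∀ h ∈ H, ρ h v = v}
      add_mem' := fun {a b} ha hb h hh => by rw [map_add, ha h hh, hb h hh]
      zero_mem' := fun h _ => map_zero _
      smul_mem' := fun c {a} ha h hh => by rw [map_smul, ha h hh] }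
  have hVH : ∀ g : G, ∀ v ∈ VH, ρ g v ∈ VH := by
    intro g v hv h hh
    have h1 : g⁻¹ * h * g ∈ H := hH.conj_mem' h hh g
    have h2 : h * g = g * (g⁻¹ * h * g) := by group
    have h3 : ρ h (ρ g v) = ρ (h * g) v := by rw [map_mul, Module.End.mul_apply]
    rw [h3, h2, map_mul, Module.End.mul_apply, hv _ h1]
  -- the augmentation space
  let IH : Submodule F V := Submodule.span F {u | ∃ h ∈ H, ∃ v : V, u = ρ h v - v}
  have hIH : ∀ g : G, ∀ v ∈ IH, ρ g v ∈ IH := by
    intro g v hv
    have : IH.map (ρ g) ≤ IH := by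
      rw [Submodule.map_span_le]
      rintro u ⟨h, hh, v, rfl⟩
      apply Submodule.subset_span
      refine ⟨g * h * g⁻¹, hH.conj_mem h hh g, ρ g v, ?_⟩
      have h3 : ρ (g * h * g⁻¹) (ρ g v) = ρ (g * h * g⁻¹ * g) v := by
        rw [map_mul _ _ g, Module.End.mul_apply]
      have h4 : g * h * g⁻¹ * g = g * h := by group
      rw [h3, h4, map_sub, map_mul, Module.End.mul_apply]
    exact this (Submodule.mem_map_of_mem hv)
  rcases lrvg_fixed_or_coinv ρ hV H F1 with ⟨v, hv0, hv⟩ | ⟨L, hL, hLv⟩
  · have hv' : v ∈ VH := hv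
    rcases hirr VH hVH with h | h
    · rw [h] at hv'
      exact absurd ((Submodule.mem_bot F).mp hv') hv0
    · intro h' hh'
      ext u
      have : u ∈ VH := by rw [h]; trivial
      exact this h' hh'
  · have hle : IH ≤ L := by
      rw [Submodule.span_le]
      rintro u ⟨h, hh, v, rfl⟩
      exact hLv h hh v
    rcases hirr IH hIH with h | h
    · intro h' hh'
      ext u
      have : ρ h' u - u ∈ IH := Submodule.subset_span ⟨h', hh', u, rfl⟩
      rw [h] at this
      exact sub_eq_zero.mp ((Submodule.mem_bot F).mp this)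
    · exfalso
      apply hL
      rw [eq_top_iff, ← h]
      exact hle

end irreducible

section main

variable {p : ℕ} [Fact p.Prime] {V : Type*} [AddCommGroup V] [Module (ZMod p) V]
variable {G : Type*} [Group G] (ρ : G →* Module.End (ZMod p) V)

/-- An endomorphism `T` of a finite-dimensional nonzero `ZMod p`-space with `T ^ p = T` has an
eigenvalue in `ZMod p`. -/
theorem lrvg_exists_eigen [Module.Finite (ZMod p) V] [Nontrivial V] (T : Module.End (ZMod p) V)
    (hT : T ^ p = T) : ∃ (a : ZMod p) (v : V), v ≠ 0 ∧ T v = a • v := by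
  classical
  have hp : p.Prime := Fact.out
  have hint : IsIntegral (ZMod p) T := Algebra.IsIntegral.isIntegral T
  set q : Polynomial (ZMod p) := Polynomial.X ^ p - Polynomial.X with hq
  have hq0 : q ≠ 0 := FiniteField.X_pow_card_sub_X_ne_zero (ZMod p) hp.one_lt
  have hqT : Polynomial.aeval T q = 0 := by
    rw [hq, map_sub, map_pow, Polynomial.aeval_X, hT, sub_self]
  have hdvd : minpoly (ZMod p) T ∣ q := minpoly.dvd (ZMod p) T hqT
  have hsplit : q.Splits := by
    rw [Polynomial.splits_iff_card_roots]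
    have h1 : q.roots = Finset.univ.val := by
      have := FiniteField.roots_X_pow_card_sub_X (ZMod p)
      rwa [ZMod.card] at this
    rw [h1, hq, FiniteField.X_pow_card_sub_X_natDegree_eq (ZMod p) hp.one_lt]
    simp [ZMod.card]
  have hms : (minpoly (ZMod p) T).Splits := hsplit.of_dvd hq0 hdvd
  obtain ⟨a, ha⟩ := hms.exists_eval_eq_zero (minpoly.degree_pos hint).ne'
  have hev : T.HasEigenvalue a := Module.End.hasEigenvalue_of_isRoot ha
  obtain ⟨v, hv⟩ := hev.exists_hasEigenvector
  exact ⟨a, v, hv.2, hv.apply_eq_smul⟩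

/-- **The stable line.**  `V` a plane over `ZMod p`; `H` a normal subgroup with abelian quotient
all of whose elements have a nonzero fixed vector; `Hp` a subgroup containing all `(p-1)`-th
powers; `c ∈ G` such that all elements of `c · Hp` have a nonzero fixed vector.  Then some line
of `V` is `G`-stable. -/
theorem lrvg_exists_stable_line (hV : finrank (ZMod p) V = 2)
    (H : Subgroup G) [H.Normal] (hab : ∀ g g' : G, g * g' * g⁻¹ * g'⁻¹ ∈ H)
    (Hp : Subgroup G) (hHp : ∀ g : G, g ^ (p - 1) ∈ Hp) (c : G)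
    (F1 : ∀ h ∈ H, ∃ v : V, v ≠ 0 ∧ ρ h v = v)
    (F2 : ∀ τ ∈ Hp, ∃ v : V, v ≠ 0 ∧ ρ (c * τ) v = v) :
    ∃ L : Submodule (ZMod p) V, L ≠ ⊥ ∧ L ≠ ⊤ ∧ ∀ g : G, ∀ v ∈ L, ρ g v ∈ L := by
  classical
  have hp : p.Prime := Fact.out
  by_contra hno
  have hirr : ∀ L : Submodule (ZMod p) V, (∀ g : G, ∀ v ∈ L, ρ g v ∈ L) → L = ⊥ ∨ L = ⊤ := by
    intro L hL
    by_contra hcon
    rw [not_or] at hcon
    exact hno ⟨L, hcon.1, hcon.2, hL⟩
  have : Module.Finite (ZMod p) V := Module.finite_of_finrank_pos (by rw [hV]; norm_num)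
  have : Nontrivial V := Module.nontrivial_of_finrank_pos (R := ZMod p) (by rw [hV]; norm_num)
  -- `H` acts trivially
  have hH1 : ∀ h ∈ H, ρ h = 1 := lrvg_trivial_of_fixed ρ hV hirr H F1
  -- the image is commutative
  have hcomm : ∀ g g' : G, ρ g * ρ g' = ρ g' * ρ g := by
    intro g g'
    have h1 : g * g' = (g * g' * g⁻¹ * g'⁻¹) * (g' * g) := by group
    rw [← map_mul, ← map_mul, h1, map_mul, hH1 _ (hab g g'), one_mul]
  -- elements of `c · Hp` act trivially
  have hc1 : ∀ τ ∈ Hp, ρ (c * τ) = 1 := by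
    intro τ hτ
    obtain ⟨v, hv0, hv⟩ := F2 τ hτ
    have h0 : ρ (c * τ) - 1 = 0 := by
      refine lrvg_eq_zero_of_ker ρ hirr _ (fun g => ?_) ⟨v, hv0, ?_⟩
      · rw [sub_mul, mul_sub, hcomm, one_mul, mul_one]
      · rw [LinearMap.sub_apply, hv, Module.End.one_apply, sub_self]
    exact sub_eq_zero.mp h0
  have hHp1 : ∀ τ ∈ Hp, ρ τ = 1 := by
    intro τ hτ
    have h1 := hc1 1 Hp.one_mem
    rw [mul_one] at h1
    have h2 := hc1 τ hτ
    rwa [map_mul, h1, one_mul] at h2
  -- every element is a scalar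
  have hscal : ∀ g : G, ∃ a : ZMod p, ρ g = a • (1 : Module.End (ZMod p) V) := by
    intro g
    have hT : ρ g ^ p = ρ g := by
      have h1 : ρ g ^ (p - 1) = 1 := by rw [← map_pow]; exact hHp1 _ (hHp g)
      have h2 : ρ g ^ p = ρ g ^ (p - 1) * ρ g := by
        rw [← pow_succ, Nat.sub_add_cancel hp.one_le]
      rw [h2, h1, one_mul]
    obtain ⟨a, v, hv0, hv⟩ := lrvg_exists_eigen (ρ g) hT
    refine ⟨a, ?_⟩
    have h0 : ρ g - a • (1 : Module.End (ZMod p) V) = 0 := by
      refine lrvg_eq_zero_of_ker ρ hirr _ (fun g' => ?_) ⟨v, hv0, ?_⟩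
      · rw [sub_mul, mul_sub, hcomm, smul_mul_assoc, mul_smul_comm, one_mul, mul_one]
      · rw [LinearMap.sub_apply, hv, LinearMap.smul_apply, Module.End.one_apply, sub_self]
    exact sub_eq_zero.mp h0
  -- so every line is stable
  obtain ⟨v, hv0⟩ := exists_ne (0 : V)
  have hst : ∀ g : G, ∀ u ∈ Submodule.span (ZMod p) {v}, ρ g u ∈ Submodule.span (ZMod p) {v} := by
    intro g u hu
    obtain ⟨a, ha⟩ := hscal g
    rw [ha, LinearMap.smul_apply, Module.End.one_apply]
    exact Submodule.smul_mem _ _ hu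
  rcases hirr _ hst with h | h
  · have : v ∈ Submodule.span (ZMod p) {v} := Submodule.mem_span_singleton_self v
    rw [h] at this
    exact hv0 ((Submodule.mem_bot _).mp this)
  · have h1 : finrank (ZMod p) (Submodule.span (ZMod p) {v}) = 1 := finrank_span_singleton hv0
    rw [h, finrank_top, hV] at h1
    omega

end main

end Fermat.Agent.LR
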