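/-
LR node (v*) NON-EISENSTEIN, file (3): a Frobenius element at a good prime `ℓ ∉ {2, p}` with
`p ∣ #W(𝔽_ℓ)` fixes a nonzero point of `W[p](ℚ̄)`.

No reduction homomorphism is needed.  Cauchy gives a point `(r, s)` of order `p` in `W(𝔽_ℓ)`; the
ladder polynomial `C = ldC (ldPoly W) m` (`p = 2m+1`, S13/Ladder, char-free) vanishes at `r`; its
leading coefficient `-p` is a unit at `A | ℓ` and all its roots in `ℚ̄` lie in `A`, so some root
`x₀` is congruent to (an integer lift of) `r`; for `P = (x₀, y₀)` one gets `y₀ ≡` an integer as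
well, hence `φ P ≡ P` coordinatewise for a Frobenius element `φ` at `A`, and `φ P = P` by
S05 (`cg_fixed_of_good`, `eq_zero_of_nsmul_eq_zero`).

Owner: helper22.  Prefix `lrvr_`.
-/
import Fermat.Prelude.Def_FLTPrelim_Modularity
import Fermat.Prelude.Def_EllipticCurve_FrobeniusTrace
import Fermat.Agent.S13.Ladder.Torsion
import Fermat.Agent.S13.Ladder.Integral
import Fermat.Agent.S05.Congruent
import Fermat.Agent.S05.NoTorsion
import Fermat.Agent.S05.GaloisAction

set_option autoImplicit false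

namespace Fermat.Agent.LR

open Polynomial WeierstrassCurve WeierstrassCurve.Affine WeierstrassCurve.Affine.Point
open Fermat.Agent.S05 Fermat.Agent.S13

section valuation

variable {K : Type*} [Field K] (A : ValuationSubring K)

theorem lrvr_intCast_val_le (z : ℤ) : A.valuation (z : K) ≤ 1 :=
  (A.valuation_le_one_iff _).mpr (intCast_mem A z)

theorem lrvr_natCast_val_le (n : ℕ) : A.valuation (n : K) ≤ 1 :=
  (A.valuation_le_one_iff _).mpr (natCast_mem A n)

/-- An integer divisible by `ℓ` lies in the maximal ideal of a valuation ring over `ℓ`. -/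
theorem lrvr_val_lt_of_dvd {ℓ : ℕ} (hℓ : A.valuation (ℓ : K) < 1) {z : ℤ} (h : (ℓ : ℤ) ∣ z) :
    A.valuation (z : K) < 1 := by
  obtain ⟨t, rfl⟩ := h
  push_cast
  rw [map_mul]
  calc A.valuation (ℓ : K) * A.valuation (t : K) ≤ A.valuation (ℓ : K) * 1 :=
        mul_le_mul' le_rfl (lrvr_intCast_val_le A t)
    _ = A.valuation (ℓ : K) := mul_one _
    _ < 1 := hℓ

/-- An integer prime to `ℓ` is a unit of a valuation ring over `ℓ`. -/
theorem lrvr_val_eq_one_of_coprime {ℓ : ℕ} (hℓ : A.valuation (ℓ : K) < 1) {n : ℕ}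
    (h : Nat.Coprime n ℓ) : A.valuation (n : K) = 1 := by
  refine le_antisymm (lrvr_natCast_val_le A n) ?_
  by_contra hlt
  rw [not_le] at hlt
  -- `1 = a n + b ℓ`
  have h1 : (1 : K) = ((Nat.gcdA n ℓ : ℤ) : K) * (n : K) + ((Nat.gcdB n ℓ : ℤ) : K) * (ℓ : K) := by
    have := Nat.gcd_eq_gcd_ab n ℓ
    rw [h] at this
    have h2 := congrArg (fun z : ℤ => (z : K)) this
    push_cast at h2
    rw [h2]; ring
  have h3 : A.valuation (1 : K) < 1 := by
    rw [h1]
    refine lt_of_le_of_lt (A.valuation.map_add _ _) (max_lt ?_ ?_)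
    · rw [map_mul]
      calc A.valuation ((Nat.gcdA n ℓ : ℤ) : K) * A.valuation (n : K)
          ≤ 1 * A.valuation (n : K) := mul_le_mul' (lrvr_intCast_val_le A _) le_rfl
        _ = A.valuation (n : K) := one_mul _
        _ < 1 := hlt
    · rw [map_mul]
      calc A.valuation ((Nat.gcdB n ℓ : ℤ) : K) * A.valuation (ℓ : K)
          ≤ 1 * A.valuation (ℓ : K) := mul_le_mul' (lrvr_intCast_val_le A _) le_rfl
        _ = A.valuation (ℓ : K) := one_mul _
        _ < 1 := hℓ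
  rw [map_one] at h3
  exact lt_irrefl _ h3

/-- An integer not divisible by the prime `ℓ` is a unit of a valuation ring over `ℓ`. -/
theorem lrvr_val_eq_one_of_not_dvd {ℓ : ℕ} (hℓp : ℓ.Prime) (hℓ : A.valuation (ℓ : K) < 1) {z : ℤ}
    (h : ¬ (ℓ : ℤ) ∣ z) : A.valuation (z : K) = 1 := by
  have h1 : Nat.Coprime z.natAbs ℓ := by
    rw [Nat.coprime_comm, hℓp.coprime_iff_not_dvd]
    intro h2
    exact h (Int.natCast_dvd.mpr h2)
  have h2 := lrvr_val_eq_one_of_coprime A hℓ h1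
  rcases Int.natAbs_eq z with h3 | h3
  · have : (z : K) = ((z.natAbs : ℕ) : K) := by rw [← Int.cast_natCast, ← h3]
    rw [this]; exact h2
  · have : (z : K) = -((z.natAbs : ℕ) : K) := by rw [← Int.cast_natCast, ← Int.cast_neg, ← h3]
    rw [this, Valuation.map_neg]; exact h2

/-- If a product of two elements of `A` lies in the maximal ideal, so does a factor. -/
theorem lrvr_val_mul_lt {a b : K} (ha : a ∈ A) (hb : b ∈ A) (h : A.valuation (a * b) < 1) :
    A.valuation a < 1 ∨ A.valuation b < 1 := by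
  by_contra hcon
  rw [not_or, not_lt, not_lt] at hcon
  have h1 : A.valuation a = 1 := le_antisymm ((A.valuation_le_one_iff _).mpr ha) hcon.1
  have h2 : A.valuation b = 1 := le_antisymm ((A.valuation_le_one_iff _).mpr hb) hcon.2
  rw [map_mul, h1, h2, one_mul] at h
  exact lt_irrefl _ h

/-- A polynomial with unit leading coefficient all of whose roots are integral: a point of `A` at
which the value is small is close to a root. -/
theorem lrvr_exists_root_near (f : K[X]) (hs : f.Splits)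
    (hlead : A.valuation f.leadingCoeff = 1) (hroots : ∀ a ∈ f.roots, a ∈ A) {r : K} (hr : r ∈ A)
    (hfr : A.valuation (f.eval r) < 1) : ∃ a ∈ f.roots, A.valuation (r - a) < 1 := by
  by_contra hcon
  push Not at hcon
  have h1 : ∀ a ∈ f.roots, A.valuation (r - a) = 1 := by
    intro a ha
    refine le_antisymm ?_ (hcon a ha)
    exact (A.valuation_le_one_iff _).mpr (sub_mem hr (hroots a ha))
  rw [hs.eval_eq_prod_roots, map_mul, hlead, one_mul, map_multiset_prod, Multiset.map_map] at hfr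
  have h2 : (Multiset.map (⇑A.valuation ∘ fun a => r - a) f.roots).prod = 1 := by
    apply Multiset.prod_eq_one
    intro x hx
    obtain ⟨a, ha, rfl⟩ := Multiset.mem_map.mp hx
    exact h1 a ha
  rw [h2] at hfr
  exact lt_irrefl _ hfr

/-- An element of `A` congruent to an integer is congruent to its own `ℓ`-th power. -/
theorem lrvr_pow_congr {ℓ : ℕ} [Fact ℓ.Prime] (hℓ : A.valuation (ℓ : K) < 1) {z : K} (u : ℤ)
    (hz : A.valuation (z - (u : K)) < 1) : A.valuation (z ^ ℓ - z) < 1 := by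
  have hzA : z ∈ A := by
    have : z = (z - (u : K)) + (u : K) := by ring
    rw [this]
    exact A.add_mem _ _ (A.mem_of_valuation_le_one _ hz.le) (intCast_mem A u)
  -- `z ^ ℓ - u ^ ℓ` is a multiple of `z - u`
  have h1 : A.valuation (z ^ ℓ - (u : K) ^ ℓ) < 1 := by
    obtain ⟨c, hc⟩ : ∃ c ∈ A, z ^ ℓ - (u : K) ^ ℓ = (z - (u : K)) * c := by
      refine ⟨∑ i ∈ Finset.range ℓ, z ^ i * (u : K) ^ (ℓ - 1 - i), ?_, ?_⟩
      · exact sum_mem fun i _ => A.mul_mem _ _ (pow_mem hzA i) (pow_mem (intCast_mem A u) _)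
      · rw [mul_comm]
        exact ((Commute.all z (u : K)).geom_sum₂_mul ℓ).symm
    rw [hc.2, map_mul]
    calc A.valuation (z - (u : K)) * A.valuation c ≤ A.valuation (z - (u : K)) * 1 :=
          mul_le_mul' le_rfl ((A.valuation_le_one_iff _).mpr hc.1)
      _ = A.valuation (z - (u : K)) := mul_one _
      _ < 1 := hz
  -- Fermat
  have h2 : A.valuation ((u : K) ^ ℓ - (u : K)) < 1 := by
    have hd : (ℓ : ℤ) ∣ u ^ ℓ - u := by
      rw [← ZMod.intCast_zmod_eq_zero_iff_dvd]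
      push_cast
      rw [ZMod.pow_card, sub_self]
    have := lrvr_val_lt_of_dvd A hℓ hd
    push_cast at this
    exact this
  have h3 : z ^ ℓ - z = (z ^ ℓ - (u : K) ^ ℓ) + ((u : K) ^ ℓ - (u : K)) - (z - (u : K)) := by ring
  rw [h3]
  refine lt_of_le_of_lt (A.valuation.map_sub _ _) (max_lt ?_ hz)
  exact lt_of_le_of_lt (A.valuation.map_add _ _) (max_lt h1 h2)

end valuation

section frobenius

variable {K L : Type*} [Field K] [Field L] [Algebra K L] (A : ValuationSubring L)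

/-- The Frobenius congruence on elements of `A`. -/
theorem lrvr_frob_congr {φ : L ≃ₐ[K] L} {ℓ : ℕ} (hφ : A.IsFrobeniusAt φ ℓ) {z : L}
    (hz : z ∈ A) : A.valuation (φ z - z ^ ℓ) < 1 := by
  have h := hφ.smul_residue_eq (IsLocalRing.residue A ⟨z, hz⟩)
  rw [← IsLocalRing.ResidueField.residue_smul, ← map_pow] at h
  have h1 := Ideal.Quotient.eq.mp h
  rw [← ValuationSubring.coe_mem_nonunits_iff] at h1
  exact (ValuationSubring.mem_nonunits_iff (A := A)).1 h1

/-- A Frobenius element at `ℓ` fixes, modulo the maximal ideal, every element of `A` which is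
congruent to an integer. -/
theorem lrvr_frob_fix_congr {φ : L ≃ₐ[K] L} {ℓ : ℕ} [Fact ℓ.Prime]
    (hℓ : A.valuation (ℓ : L) < 1) (hφ : A.IsFrobeniusAt φ ℓ) {z : L} (u : ℤ)
    (hz : A.valuation (z - (u : L)) < 1) : A.valuation (φ z - z) < 1 := by
  have hzA : z ∈ A := by
    have : z = (z - (u : L)) + (u : L) := by ring
    rw [this]
    exact A.add_mem _ _ (A.mem_of_valuation_le_one _ hz.le) (intCast_mem A u)
  have h1 := lrvr_frob_congr A hφ hzA
  have h2 := lrvr_pow_congr A hℓ u hz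
  have h3 : φ z - z = (φ z - z ^ ℓ) + (z ^ ℓ - z) := by ring
  rw [h3]
  exact lt_of_le_of_lt (A.valuation.map_add _ _) (max_lt h1 h2)

end frobenius

section zmod

variable (W : WeierstrassCurve ℤ) {ℓ : ℕ} [Fact ℓ.Prime]

/-- Cauchy: if `p ∣ ℓ + 1 - a_ℓ = #W(𝔽_ℓ)` there is an affine point of order `p` on the
reduction. -/
theorem lrvr_exists_order_p {p : ℕ} (hp : p.Prime)
    (hdvd : (p : ℤ) ∣ (ℓ : ℤ) + 1 - W.apOfModel ℓ) :
    ∃ (r s : ZMod ℓ) (h : (W.reductionMod ℓ).toAffine.Nonsingular r s),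
      p • (Point.some r s h : (W.reductionMod ℓ).toAffine.Point) = 0 := by
  have : Fact p.Prime := ⟨hp⟩
  have hcard : (ℓ : ℤ) + 1 - W.apOfModel ℓ = (Nat.card (W.reductionMod ℓ).toAffine.Point : ℤ) := by
    simp only [WeierstrassCurve.apOfModel, WeierstrassCurve.traceOfFrobenius,
      WeierstrassCurve.card, Nat.card_zmod]
    ring
  rw [hcard] at hdvd
  have hdvd' : p ∣ Nat.card (W.reductionMod ℓ).toAffine.Point := by exact_mod_cast hdvd
  obtain ⟨x, hx⟩ := exists_prime_addOrderOf_dvd_card' p hdvd'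
  have hx0 : x ≠ 0 := by
    intro h0
    rw [h0, addOrderOf_zero] at hx
    exact hp.one_lt.ne hx
  have hpx : p • x = 0 := by rw [← hx]; exact addOrderOf_nsmul_eq_zero x
  rcases x with _ | ⟨r, s, h⟩
  · exact absurd rfl hx0
  · exact ⟨r, s, h, hpx⟩

/-- The integer data of a `(2m+1)`-torsion point of the reduction: lifts `zr`, `zs` of the
coordinates such that `ℓ` divides the ladder polynomial at `zr` and the Weierstrass equation at
`(zr, zs)`. -/
theorem lrvr_zmod_data {m : ℕ} {r s : ZMod ℓ}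
    (h : (W.reductionMod ℓ).toAffine.Nonsingular r s)
    (hP : (2 * m + 1) • (Point.some r s h : (W.reductionMod ℓ).toAffine.Point) = 0) :
    ∃ zr zs : ℤ, (ℓ : ℤ) ∣ (ldC (ldPoly W) m).eval zr ∧
      (ℓ : ℤ) ∣ zs ^ 2 + W.a₁ * zr * zs + W.a₃ * zs - (zr ^ 3 + W.a₂ * zr ^ 2 + W.a₄ * zr + W.a₆) := by
  obtain ⟨zr, rfl⟩ := ZMod.intCast_surjective r
  obtain ⟨zs, rfl⟩ := ZMod.intCast_surjective s
  refine ⟨zr, zs, ?_, ?_⟩
  · have h1 := (ld_odd_nsmul_eq_zero_iff h m).mp hP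
    have h2 : ldC (ldPoly (W.reductionMod ℓ).toAffine) m =
        (ldC (ldPoly W) m).map (Int.castRingHom (ZMod ℓ)) :=
      (ldC_ldPoly_map (Int.castRingHom (ZMod ℓ)) W m).symm
    rw [h2, eval_intCast_map] at h1
    rw [← ZMod.intCast_zmod_eq_zero_iff_dvd]
    simpa using h1
  · have h1 := h.1
    rw [Affine.equation_iff] at h1
    simp only [WeierstrassCurve.reductionMod, WeierstrassCurve.map_a₁, WeierstrassCurve.map_a₂,
      WeierstrassCurve.map_a₃, WeierstrassCurve.map_a₄, WeierstrassCurve.map_a₆,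
      eq_intCast] at h1
    rw [← ZMod.intCast_zmod_eq_zero_iff_dvd]
    push_cast
    linear_combination h1

end zmod

section main

local notation "Qbar" => AlgebraicClosure ℚ

variable (W : WeierstrassCurve ℤ)

/-- The base change to `ℚ̄` of the rational curve of an integral model is the base change of the
integral model. -/
theorem lrvr_baseChange_eq :
    ((W.map (Int.castRingHom ℚ))⁄Qbar) = W.map (Int.castRingHom Qbar) := by
  change (W.map (Int.castRingHom ℚ)).map (algebraMap ℚ Qbar) = _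
  rw [WeierstrassCurve.map_map]
  congr 1

/-- **A Frobenius element at a good prime `ℓ ∉ {2, p}` with `p ∣ #W(𝔽_ℓ)` fixes a nonzero
`p`-torsion point.** -/
theorem lrvr_frob_fixed {p ℓ : ℕ} (hp : p.Prime) (hp2 : p ≠ 2) (hℓ : ℓ.Prime) (hℓ2 : ℓ ≠ 2)
    (hℓp : ℓ ≠ p) (hgood : W.IsGoodPrimeFor ℓ) (A : ValuationSubring Qbar)
    (hA : A.LiesOverPrime ℓ) (φ : Qbar ≃ₐ[ℚ] Qbar) (hφ : A.IsFrobeniusAt φ ℓ)
    (hdvd : (p : ℤ) ∣ (ℓ : ℤ) + 1 - W.apOfModel ℓ) :
    ∃ P : ((W.map (Int.castRingHom ℚ))⁄Qbar).Point, P ≠ 0 ∧ p • P = 0 ∧ φ • P = P := by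
  have : Fact ℓ.Prime := ⟨hℓ⟩
  obtain ⟨m, rfl⟩ : ∃ m, p = 2 * m + 1 := by
    rcases hp.eq_two_or_odd' with h | ⟨k, hk⟩
    · exact absurd h hp2
    · exact ⟨k, hk⟩
  obtain ⟨r, s, h, hP⟩ := lrvr_exists_order_p W hp hdvd
  obtain ⟨zr, zs, hC, hE⟩ := lrvr_zmod_data W h hP
  set E : Affine Qbar := ((W.map (Int.castRingHom ℚ))⁄Qbar) with hEdef
  have hEeq : E = W.map (Int.castRingHom Qbar) := lrvr_baseChange_eq W
  -- valuations
  have hvℓ : A.valuation (ℓ : Qbar) < 1 := (ValuationSubring.mem_nonunits_iff (A := A)).1 hA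
  have hv2 : A.valuation (2 : Qbar) = 1 := by
    have := lrvr_val_eq_one_of_coprime A hvℓ
      ((Nat.coprime_primes Nat.prime_two hℓ).mpr hℓ2.symm)
    exact_mod_cast this
  have hvp : A.valuation ((2 * m + 1 : ℕ) : Qbar) = 1 :=
    lrvr_val_eq_one_of_coprime A hvℓ ((Nat.coprime_primes hp hℓ).mpr hℓp.symm)
  -- the coefficients
  have ha1 : E.a₁ = (W.a₁ : Qbar) := by rw [hEeq]; simp
  have ha2 : E.a₂ = (W.a₂ : Qbar) := by rw [hEeq]; simp
  have ha3 : E.a₃ = (W.a₃ : Qbar) := by rw [hEeq]; simp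
  have ha4 : E.a₄ = (W.a₄ : Qbar) := by rw [hEeq]; simp
  have ha6 : E.a₆ = (W.a₆ : Qbar) := by rw [hEeq]; simp
  have hb2 : E.b₂ = (W.b₂ : Qbar) := by rw [hEeq, WeierstrassCurve.map_b₂]; simp
  have hb4 : E.b₄ = (W.b₄ : Qbar) := by rw [hEeq, WeierstrassCurve.map_b₄]; simp
  have hb6 : E.b₆ = (W.b₆ : Qbar) := by rw [hEeq, WeierstrassCurve.map_b₆]; simp
  have hb8 : E.b₈ = (W.b₈ : Qbar) := by rw [hEeq, WeierstrassCurve.map_b₈]; simp
  have hΔ : E.Δ = (W.Δ : Qbar) := by rw [hEeq, WeierstrassCurve.map_Δ]; simp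
  have hA1 : E.a₁ ∈ A := by rw [ha1]; exact intCast_mem A _
  have hA2 : E.a₂ ∈ A := by rw [ha2]; exact intCast_mem A _
  have hA3 : E.a₃ ∈ A := by rw [ha3]; exact intCast_mem A _
  have hA4 : E.a₄ ∈ A := by rw [ha4]; exact intCast_mem A _
  have hA6 : E.a₆ ∈ A := by rw [ha6]; exact intCast_mem A _
  have hvΔ : A.valuation E.Δ = 1 := by
    rw [hΔ]; exact lrvr_val_eq_one_of_not_dvd A hℓ hvℓ hgood
  have hΔ0 : E.Δ ≠ 0 := by
    intro h0
    rw [h0, _root_.map_zero] at hvΔ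
    exact zero_ne_one hvΔ
  have hIM : IntegralModel E A :=
    ⟨by rw [hb2]; exact intCast_mem A _, by rw [hb4]; exact intCast_mem A _,
      by rw [hb6]; exact intCast_mem A _, by rw [hb8]; exact intCast_mem A _, hv2⟩
  -- the kernel of reduction has no `p`-torsion
  have hker : ∀ (X Y : Qbar) (H : E.Nonsingular X Y), X ∉ A →
      (2 * m + 1) • (Point.some X Y H : E.Point) ≠ 0 := by
    intro X Y H hX h0
    exact Point.some_ne_zero H
      (eq_zero_of_nsmul_eq_zero hIM hp hp2 hvp ((inKerRed_some H).mpr hX) h0)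
  -- the ladder polynomial
  set f : Qbar[X] := ldC (ldPoly E) m with hf
  have hfmap : f = (ldC (ldPoly W) m).map (Int.castRingHom Qbar) := by
    rw [hf, hEeq]
    exact (ldC_ldPoly_map (Int.castRingHom Qbar) W m).symm
  obtain ⟨hdeg, hf0⟩ := ldC_natDegree E m
  have hlead : f.leadingCoeff = -((2 * m + 1 : ℕ) : Qbar) := by
    rw [leadingCoeff, hf, hdeg, (ldC_top E m).top]
  have hvlead : A.valuation f.leadingCoeff = 1 := by rw [hlead, Valuation.map_neg, hvp]
  have hroots : ∀ a ∈ f.roots, a ∈ A := by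
    intro a ha
    by_contra haA
    have hfa : f.eval a = 0 := (mem_roots hf0).mp ha
    obtain ⟨y, hy⟩ := ld_exists_point hΔ0 a
    exact hker a y hy haA ((ld_odd_nsmul_eq_zero_iff hy m).mpr hfa)
  have hfzr : A.valuation (f.eval (zr : Qbar)) < 1 := by
    rw [hfmap, eval_intCast_map, eq_intCast]
    exact lrvr_val_lt_of_dvd A hvℓ hC
  obtain ⟨x₀, hx₀, hx₀r⟩ :=
    lrvr_exists_root_near A f (IsAlgClosed.splits f) hvlead hroots (intCast_mem A zr) hfzr
  have hx₀A : x₀ ∈ A := hroots x₀ hx₀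
  have hx₀z : A.valuation (x₀ - (zr : Qbar)) < 1 := by
    rw [← Valuation.map_neg, neg_sub]; exact hx₀r
  obtain ⟨y₀, hy₀⟩ := ld_exists_point hΔ0 x₀
  have hP₀ : (2 * m + 1) • (Point.some x₀ y₀ hy₀ : E.Point) = 0 :=
    (ld_odd_nsmul_eq_zero_iff hy₀ m).mpr ((mem_roots hf0).mp hx₀)
  have hy₀A : y₀ ∈ A := cg_y_mem A E hA1 hA2 hA3 hA4 hA6 hx₀A hy₀.1
  -- `y₀` is congruent to an integer
  obtain ⟨u, hu⟩ : ∃ u : ℤ, A.valuation (y₀ - (u : Qbar)) < 1 := by
    have heq := hy₀.1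
    rw [Affine.equation_iff, ha1, ha2, ha3, ha4, ha6] at heq
    set t' : ℤ := -zs - W.a₁ * zr - W.a₃ with ht'
    have hid : (y₀ - (zs : Qbar)) * (y₀ - (t' : Qbar)) =
        (x₀ - (zr : Qbar)) * (x₀ ^ 2 + x₀ * zr + (zr : Qbar) ^ 2 + (W.a₂ : Qbar) * (x₀ + zr)
          + (W.a₄ : Qbar) - (W.a₁ : Qbar) * y₀)
        - ((zs ^ 2 + W.a₁ * zr * zs + W.a₃ * zs - (zr ^ 3 + W.a₂ * zr ^ 2 + W.a₄ * zr + W.a₆) : ℤ)
            : Qbar) := by
      rw [ht']
      push_cast
      linear_combination heq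
    have hprod : A.valuation ((y₀ - (zs : Qbar)) * (y₀ - (t' : Qbar))) < 1 := by
      rw [hid]
      refine lt_of_le_of_lt (A.valuation.map_sub _ _) (max_lt ?_ (lrvr_val_lt_of_dvd A hvℓ hE))
      rw [map_mul]
      have hmem : x₀ ^ 2 + x₀ * zr + (zr : Qbar) ^ 2 + (W.a₂ : Qbar) * (x₀ + zr)
          + (W.a₄ : Qbar) - (W.a₁ : Qbar) * y₀ ∈ A := by
        have hz : (zr : Qbar) ∈ A := intCast_mem A zr
        have h2 : (W.a₂ : Qbar) ∈ A := intCast_mem A _
        have h4 : (W.a₄ : Qbar) ∈ A := intCast_mem A _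
        have h1 : (W.a₁ : Qbar) ∈ A := intCast_mem A _
        exact sub_mem (add_mem (add_mem (add_mem (add_mem (pow_mem hx₀A 2) (mul_mem hx₀A hz))
          (pow_mem hz 2)) (mul_mem h2 (add_mem hx₀A hz))) h4) (mul_mem h1 hy₀A)
      calc A.valuation (x₀ - (zr : Qbar)) * A.valuation _ ≤ A.valuation (x₀ - (zr : Qbar)) * 1 :=
            mul_le_mul' le_rfl ((A.valuation_le_one_iff _).mpr hmem)
        _ = A.valuation (x₀ - (zr : Qbar)) := mul_one _
        _ < 1 := hx₀z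
    rcases lrvr_val_mul_lt A (sub_mem hy₀A (intCast_mem A zs)) (sub_mem hy₀A (intCast_mem A t'))
      hprod with h1 | h1
    · exact ⟨zs, h1⟩
    · exact ⟨t', h1⟩
  -- the Frobenius congruences
  have hφx : A.valuation (φ x₀ - x₀) < 1 := lrvr_frob_fix_congr A hvℓ hφ zr hx₀z
  have hφy : A.valuation (φ y₀ - y₀) < 1 := lrvr_frob_fix_congr A hvℓ hφ u hu
  refine ⟨Point.some x₀ y₀ hy₀, Point.some_ne_zero hy₀, hP₀, ?_⟩
  have hP' : (2 * m + 1) • (φ • (Point.some x₀ y₀ hy₀ : E.Point)) = 0 := by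
    rw [← ga_smul_nsmul, hP₀, smul_zero]
  rw [S05.smul_some] at hP' ⊢
  exact cg_fixed_of_good A E hA1 hA2 hA3 hA4 hA6 hvΔ hker hy₀ _ hP₀ hP' (fun _ _ => ⟨hφx, hφy⟩)

end main

end Fermat.Agent.LR
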