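/-
LR node (v*) NON-EISENSTEIN, file (4): the main statement, ALL-`ℓ` form.

`W` an integral Weierstrass model with `Δ ≠ 0`, `p` an odd prime with `W[p](ℚ̄)` irreducible.  Then
it is impossible that `p ∣ ℓ + 1 - a_ℓ(W)` for every good prime `ℓ ≠ p` outside a finite set `S`.

Proof: weak Chebotarev (`wcz_main`, WC/Plus.lean) makes every `σ ∈ Gal(ℚ̄/ℚ)` a power, on the
finite normal field `L` generated by the coordinates of `W[p]`, of a Frobenius element `φ` at a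
good prime `ℓ ∉ S ∪ {2, p}`; `φ` fixes a nonzero point of `W[p]` (`lrvr_frob_fixed`, Red.lean), so
does `σ`; a subgroup of `GL₂(𝔽_p)` all of whose elements have a nonzero fixed vector stabilises a
line (`lrvg_exists_stable_line`, Group.lean).

Owner: helper22.  Prefix `lrv_`.
-/
import Fermat.Prelude.Def_FLTPrelim_ModularRep
import Fermat.Agent.LR.NonEis.Group
import Fermat.Agent.LR.NonEis.Red
import Fermat.Agent.WC.Plus

set_option autoImplicit false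
set_option linter.style.haveILetI false

namespace Fermat.Agent.LR

open WeierstrassCurve WeierstrassCurve.Affine WeierstrassCurve.Affine.Point Fermat.Agent.S13

local notation "Qbar" => AlgebraicClosure ℚ

section level

variable (E : Affine ℚ)

/-- The coordinates of a point. -/
def lrv_coords : (E⁄Qbar).Point → Set Qbar
  | .zero => ∅
  | .some x y _ => {x, y}

theorem lrv_coords_finite (P : (E⁄Qbar).Point) : (lrv_coords E P).Finite := by
  cases P with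
  | zero => exact Set.finite_empty
  | some x y h => exact Set.toFinite {x, y}

theorem lrv_some_congr {x y x' y' : Qbar} (h : (E⁄Qbar).Nonsingular x y)
    (h' : (E⁄Qbar).Nonsingular x' y') (hx : x' = x) (hy : y' = y) :
    (Point.some x' y' h' : (E⁄Qbar).Point) = Point.some x y h := by
  subst hx hy; rfl

/-- Two automorphisms which agree on the coordinates of `P` agree on `P`. -/
theorem lrv_smul_congr (σ τ : Qbar ≃ₐ[ℚ] Qbar) (P : (E⁄Qbar).Point)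
    (h : ∀ z ∈ lrv_coords E P, σ z = τ z) : σ • P = τ • P := by
  cases P with
  | zero => rfl
  | some x y hxy =>
    rw [algEquiv_smul_def, algEquiv_smul_def, Point.map_some, Point.map_some]
    exact lrv_some_congr E _ _ (h x (Or.inl rfl)) (h y (Or.inr rfl))

/-- A finite normal extension of `ℚ` inside `ℚ̄` over which all `n`-torsion points are defined
(in the form: two automorphisms agreeing on it agree on the `n`-torsion). -/
theorem lrv_exists_level (n : ℕ) [Finite (Submodule.torsionBy ℤ (E⁄Qbar).Point n)] :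
    ∃ L : IntermediateField ℚ Qbar, FiniteDimensional ℚ L ∧ Normal ℚ L ∧
      ∀ σ τ : Qbar ≃ₐ[ℚ] Qbar, (∀ x ∈ L, σ x = τ x) →
        ∀ P : (E⁄Qbar).Point, P ∈ Submodule.torsionBy ℤ (E⁄Qbar).Point n → σ • P = τ • P := by
  have hfin : (⋃ P : Submodule.torsionBy ℤ (E⁄Qbar).Point n,
      lrv_coords E (P : (E⁄Qbar).Point)).Finite :=
    Set.finite_iUnion fun P => lrv_coords_finite E _
  haveI : Finite (⋃ P : Submodule.torsionBy ℤ (E⁄Qbar).Point n,
      lrv_coords E (P : (E⁄Qbar).Point)) := hfin.to_subtype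
  haveI : Algebra.IsAlgebraic ℚ Qbar := AlgebraicClosure.isAlgebraic ℚ
  set L0 : IntermediateField ℚ Qbar := IntermediateField.adjoin ℚ
    (⋃ P : Submodule.torsionBy ℤ (E⁄Qbar).Point n, lrv_coords E (P : (E⁄Qbar).Point)) with hL0
  haveI : FiniteDimensional ℚ L0 :=
    IntermediateField.finiteDimensional_adjoin fun x _ => Algebra.IsIntegral.isIntegral x
  haveI : IsAlgClosure ℚ Qbar := ⟨inferInstance, inferInstance⟩
  haveI : Normal ℚ Qbar := IsAlgClosure.normal ℚ Qbar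
  refine ⟨IntermediateField.normalClosure ℚ L0 Qbar, normalClosure.is_finiteDimensional ℚ L0 Qbar,
    normalClosure.normal ℚ L0 Qbar, ?_⟩
  intro σ τ hστ P hP
  refine lrv_smul_congr E σ τ P fun z hz => hστ z ?_
  apply L0.le_normalClosure
  exact IntermediateField.subset_adjoin _ _ (Set.mem_iUnion.mpr ⟨⟨P, hP⟩, hz⟩)

end level

section main

variable (W : WeierstrassCurve ℤ)

/-- The discriminant of the base change to `ℚ̄`. -/
theorem lrv_Δ_ne_zero (hΔ : W.Δ ≠ 0) : ((W.map (Int.castRingHom ℚ))⁄Qbar).Δ ≠ 0 := by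
  show ((W.map (Int.castRingHom ℚ)).map (algebraMap ℚ Qbar)).Δ ≠ 0
  rw [WeierstrassCurve.map_Δ, WeierstrassCurve.map_Δ]
  simpa using hΔ

/-- A power of an automorphism fixing a point fixes it. -/
theorem lrv_pow_smul {E : Affine ℚ} (φ : Qbar ≃ₐ[ℚ] Qbar) (P : (E⁄Qbar).Point) (h : φ • P = P)
    (k : ℕ) : (φ ^ k) • P = P := by
  induction k with
  | zero => rw [pow_zero, one_smul]
  | succ k ih => rw [pow_succ, mul_smul, h, ih]

/-- **Every element of `Gal(ℚ̄/ℚ)` has a nonzero fixed vector on `W[p]`** if `p ∣ #W(𝔽_ℓ)` for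
all good `ℓ ≠ p` outside `S`. -/
theorem lrv_exists_fixed (hΔ : W.Δ ≠ 0) {p : ℕ} (hp : p.Prime) (hp2 : p ≠ 2) (S : Finset ℕ)
    (hall : ∀ ℓ : ℕ, ℓ.Prime → W.IsGoodPrimeFor ℓ → ℓ ∉ S → ℓ ≠ p →
      (p : ℤ) ∣ (ℓ : ℤ) + 1 - W.apOfModel ℓ) (σ : Qbar ≃ₐ[ℚ] Qbar) :
    ∃ v : Submodule.torsionBy ℤ ((W.map (Int.castRingHom ℚ))⁄Qbar).Point p,
      v ≠ 0 ∧ σ • v = v := by
  haveI : Fact p.Prime := ⟨hp⟩
  have hΔ' := lrv_Δ_ne_zero W hΔ
  haveI := ld_finite_torsionBy (K := Qbar) (W.map (Int.castRingHom ℚ)) hΔ'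
    (hp.odd_of_ne_two hp2)
  obtain ⟨L, hLfd, hLn, hL⟩ := lrv_exists_level (W.map (Int.castRingHom ℚ)) p
  haveI := hLfd
  haveI := hLn
  obtain ⟨ℓ, A, φ, k, j, hℓ, hℓS, hA, hφ, hk, -⟩ :=
    Fermat.Agent.WC.wcz_main L (S ∪ {2, p} ∪ W.Δ.natAbs.primeFactors) σ
  have hℓS' : ℓ ∉ S := fun h => hℓS (by simp [h])
  have hℓ2 : ℓ ≠ 2 := fun h => hℓS (by simp [h])
  have hℓp : ℓ ≠ p := fun h => hℓS (by simp [h])
  have hgood : W.IsGoodPrimeFor ℓ := by
    intro hdvd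
    apply hℓS
    have h1 : ℓ ∣ W.Δ.natAbs := Int.natCast_dvd.mp hdvd
    have h2 : ℓ ∈ W.Δ.natAbs.primeFactors :=
      Nat.mem_primeFactors.mpr ⟨hℓ, h1, Int.natAbs_ne_zero.mpr hΔ⟩
    simp [h2]
  obtain ⟨P, hP0, hpP, hφP⟩ := lrvr_frob_fixed W hp hp2 hℓ hℓ2 hℓp hgood A hA φ hφ
    (hall ℓ hℓ hgood hℓS' hℓp)
  have hPmem : P ∈ Submodule.torsionBy ℤ ((W.map (Int.castRingHom ℚ))⁄Qbar).Point p := by
    rw [Submodule.mem_torsionBy_iff, natCast_zsmul]
    exact hpP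
  refine ⟨⟨P, hPmem⟩, ?_, ?_⟩
  · intro h0
    exact hP0 (congrArg Subtype.val h0)
  · apply Subtype.ext
    show σ • P = P
    rw [← hL (φ ^ k) σ hk P hPmem]
    exact lrv_pow_smul φ P hφP k

/-- **(v\*) NON-EISENSTEIN, all-`ℓ` form.**  If `W[p](ℚ̄)` is irreducible (`p` odd, `Δ ≠ 0`) then
for every finite set `S` there is a good prime `ℓ ∉ S`, `ℓ ≠ p`, with
`a_ℓ(W) ≢ ℓ + 1 mod p`. -/
theorem lrv_nonEis_all (hΔ : W.Δ ≠ 0) {p : ℕ} (hp : p.Prime) (hp2 : p ≠ 2)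
    (hirr : W.ModRepIsIrreducible p) (S : Finset ℕ) :
    ¬ ∀ ℓ : ℕ, ℓ.Prime → W.IsGoodPrimeFor ℓ → ℓ ∉ S → ℓ ≠ p →
      (p : ℤ) ∣ (ℓ : ℤ) + 1 - W.apOfModel ℓ := by
  intro hall
  haveI : Fact p.Prime := ⟨hp⟩
  have hΔ' := lrv_Δ_ne_zero W hΔ
  have hV := ld_finrank_torsionBy (K := Qbar) (W.map (Int.castRingHom ℚ)) hΔ' hp2
  set ρ := galoisRepModuleEnd (K := Qbar) ℚ (W.map (Int.castRingHom ℚ)) p with hρ
  have hfix : ∀ σ : Qbar ≃ₐ[ℚ] Qbar,
      ∃ v : Submodule.torsionBy ℤ ((W.map (Int.castRingHom ℚ))⁄Qbar).Point p,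
        v ≠ 0 ∧ ρ σ v = v := by
    intro σ
    obtain ⟨v, hv0, hv⟩ := lrv_exists_fixed W hΔ hp hp2 S hall σ
    exact ⟨v, hv0, by rw [hρ, galoisRepModuleEnd_apply]; exact hv⟩
  obtain ⟨N, hN0, hN1, hN⟩ := lrvg_exists_stable_line ρ hV ⊤ (fun _ _ => Subgroup.mem_top _) ⊤
    (fun _ => Subgroup.mem_top _) 1 (fun h _ => hfix h)
    (fun τ _ => by rw [one_mul]; exact hfix τ)
  have hstab : IsGaloisStable (K := Qbar) ℚ N := by
    intro σ x hx
    have := hN σ x hx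
    rwa [hρ, galoisRepModuleEnd_apply] at this
  rcases hirr.2 N hstab with h | h
  · exact hN0 h
  · exact hN1 h

/-- Existence form of `lrv_nonEis_all`. -/
theorem lrv_exists_nonEis_prime (hΔ : W.Δ ≠ 0) {p : ℕ} (hp : p.Prime) (hp2 : p ≠ 2)
    (hirr : W.ModRepIsIrreducible p) (S : Finset ℕ) :
    ∃ ℓ : ℕ, ℓ.Prime ∧ W.IsGoodPrimeFor ℓ ∧ ℓ ∉ S ∧ ℓ ≠ p ∧
      ¬ (p : ℤ) ∣ (ℓ : ℤ) + 1 - W.apOfModel ℓ := by
  by_contra hno
  apply lrv_nonEis_all W hΔ hp hp2 hirr S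
  intro ℓ hℓ hg hS hℓp
  by_contra hnd
  exact hno ⟨ℓ, hℓ, hg, hS, hℓp, hnd⟩

end main

end Fermat.Agent.LR
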