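/-
LR node (v*) NON-EISENSTEIN, file (5) = [VC]: admissible changes of variables and points.

For a field `F`, a Weierstrass curve `W / F` with `Δ ≠ 0` and `C : VariableChange F` the map
`(x, y) ↦ (u⁻²(x - r), u⁻³(y - s(x - r) - t))` is a group isomorphism `W(F) ≃ (C • W)(F)`
(`lrvc_map`, `lrvc_map_add`, `lrvc_map_bijective`); for `C` defined over `ℚ` and `F = ℚ̄` it
commutes with `Gal(ℚ̄/ℚ)` (`lrvc_map_smul`).  Consequences for an integral model `W` of an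
elliptic curve `E / ℚ` (`W.IsIntegralModelOf E`):

* `lrvc_Δ_ne_zero`      : `W.Δ ≠ 0`;
* `lrvc_modRepIsIrreducible` : `GaloisRepIsIrreducible ℚ E p → W.ModRepIsIrreducible p`.

Owner: helper22.  Prefix `lrvc_`.
-/
import Mathlib
import Fermat.Prelude.Def_FLTPrelim_ModularRep

set_option autoImplicit false
set_option linter.unusedSectionVars false

namespace Fermat.Agent.LR

open WeierstrassCurve WeierstrassCurve.Affine WeierstrassCurve.Affine.Point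

section field

variable {F : Type*} [Field F] (C : VariableChange F) (W : Affine F)

/-- The new `x`-coordinate. -/
def lrvc_X (x : F) : F := (↑C.u⁻¹ : F) ^ 2 * (x - C.r)

/-- The new `y`-coordinate. -/
def lrvc_Y (x y : F) : F := (↑C.u⁻¹ : F) ^ 3 * (y - C.s * (x - C.r) - C.t)

theorem lrvc_v_ne_zero : (↑C.u⁻¹ : F) ≠ 0 := C.u⁻¹.ne_zero

theorem lrvc_X_injective : Function.Injective (lrvc_X C) := by
  intro x x' h
  have h2 : (↑C.u⁻¹ : F) ^ 2 ≠ 0 := pow_ne_zero 2 (lrvc_v_ne_zero C)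
  have := mul_left_cancel₀ h2 h
  linear_combination this

theorem lrvc_Y_injective (x : F) : Function.Injective (lrvc_Y C x) := by
  intro y y' h
  have h3 : (↑C.u⁻¹ : F) ^ 3 ≠ 0 := pow_ne_zero 3 (lrvc_v_ne_zero C)
  have := mul_left_cancel₀ h3 h
  linear_combination this

theorem lrvc_equation_iff (x y : F) :
    (C • W).toAffine.Equation (lrvc_X C x) (lrvc_Y C x y) ↔ W.Equation x y := by
  rw [Affine.equation_iff, Affine.equation_iff]
  simp only [variableChange_a₁, variableChange_a₂, variableChange_a₃, variableChange_a₄,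
    variableChange_a₆, lrvc_X, lrvc_Y]
  have hv := lrvc_v_ne_zero C
  have h6 : (↑C.u⁻¹ : F) ^ 6 ≠ 0 := pow_ne_zero 6 hv
  constructor
  · intro h
    apply mul_left_cancel₀ h6
    linear_combination h
  · intro h
    linear_combination (↑C.u⁻¹ : F) ^ 6 * h

theorem lrvc_Δ (hΔ : W.Δ ≠ 0) : (C • W).Δ ≠ 0 := by
  rw [variableChange_Δ]
  exact mul_ne_zero (pow_ne_zero 12 (lrvc_v_ne_zero C)) hΔ

theorem lrvc_nonsingular (hΔ : W.Δ ≠ 0) {x y : F} (h : W.Nonsingular x y) :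
    (C • W).toAffine.Nonsingular (lrvc_X C x) (lrvc_Y C x y) :=
  ((C • W).toAffine.equation_iff_nonsingular_of_Δ_ne_zero (lrvc_Δ C W hΔ)).mp
    ((lrvc_equation_iff C W x y).mpr h.1)

theorem lrvc_negY (x y : F) :
    (C • W).toAffine.negY (lrvc_X C x) (lrvc_Y C x y) = lrvc_Y C x (W.negY x y) := by
  simp only [negY, variableChange_a₁, variableChange_a₃, lrvc_X, lrvc_Y]
  ring

theorem lrvc_addX (x₁ x₂ ℓ : F) :
    (C • W).toAffine.addX (lrvc_X C x₁) (lrvc_X C x₂) ((↑C.u⁻¹ : F) * (ℓ - C.s)) =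
      lrvc_X C (W.addX x₁ x₂ ℓ) := by
  simp only [addX, variableChange_a₁, variableChange_a₂, lrvc_X]
  ring

theorem lrvc_negAddY (x₁ x₂ y₁ ℓ : F) :
    (C • W).toAffine.negAddY (lrvc_X C x₁) (lrvc_X C x₂) (lrvc_Y C x₁ y₁)
        ((↑C.u⁻¹ : F) * (ℓ - C.s)) =
      lrvc_Y C (W.addX x₁ x₂ ℓ) (W.negAddY x₁ x₂ y₁ ℓ) := by
  simp only [negAddY, addX, variableChange_a₁, variableChange_a₂, lrvc_X, lrvc_Y]
  ring

theorem lrvc_addY (x₁ x₂ y₁ ℓ : F) :
    (C • W).toAffine.addY (lrvc_X C x₁) (lrvc_X C x₂) (lrvc_Y C x₁ y₁)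
        ((↑C.u⁻¹ : F) * (ℓ - C.s)) =
      lrvc_Y C (W.addX x₁ x₂ ℓ) (W.addY x₁ x₂ y₁ ℓ) := by
  rw [addY, lrvc_negAddY, lrvc_addX, lrvc_negY, addY]

variable [DecidableEq F]

theorem lrvc_slope {x₁ x₂ y₁ y₂ : F} (h₁ : W.Equation x₁ y₁) (h₂ : W.Equation x₂ y₂)
    (hxy : ¬(x₁ = x₂ ∧ y₁ = W.negY x₂ y₂)) :
    (C • W).toAffine.slope (lrvc_X C x₁) (lrvc_X C x₂) (lrvc_Y C x₁ y₁) (lrvc_Y C x₂ y₂) =
      (↑C.u⁻¹ : F) * (W.slope x₁ x₂ y₁ y₂ - C.s) := by
  have hv := lrvc_v_ne_zero C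
  by_cases hx : x₁ = x₂
  · subst hx
    have hy : y₁ ≠ W.negY x₁ y₂ := fun h => hxy ⟨rfl, h⟩
    have hyy : y₁ = y₂ := Y_eq_of_Y_ne h₁ h₂ rfl hy
    subst hyy
    have hy' : lrvc_Y C x₁ y₁ ≠ (C • W).toAffine.negY (lrvc_X C x₁) (lrvc_Y C x₁ y₁) := by
      rw [lrvc_negY]
      exact fun h => hy (lrvc_Y_injective C x₁ h)
    rw [slope_of_Y_ne rfl hy', slope_of_Y_ne rfl hy, lrvc_negY]
    have hD : y₁ - W.negY x₁ y₁ ≠ 0 := sub_ne_zero.mpr hy
    have hD' : lrvc_Y C x₁ y₁ - lrvc_Y C x₁ (W.negY x₁ y₁) =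
        (↑C.u⁻¹ : F) ^ 3 * (y₁ - W.negY x₁ y₁) := by
      simp only [lrvc_Y]; ring
    have hN : 3 * lrvc_X C x₁ ^ 2 + 2 * (C • W).a₂ * lrvc_X C x₁ + (C • W).a₄ -
        (C • W).a₁ * lrvc_Y C x₁ y₁ =
        (↑C.u⁻¹ : F) ^ 4 * ((3 * x₁ ^ 2 + 2 * W.a₂ * x₁ + W.a₄ - W.a₁ * y₁) -
          C.s * (y₁ - W.negY x₁ y₁)) := by
      simp only [variableChange_a₁, variableChange_a₂, variableChange_a₄, lrvc_X, lrvc_Y, negY]
      ring
    rw [hD', hN]
    field_simp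
  · have hx' : lrvc_X C x₁ ≠ lrvc_X C x₂ := fun h => hx (lrvc_X_injective C h)
    rw [slope_of_X_ne hx', slope_of_X_ne hx]
    have hD : x₁ - x₂ ≠ 0 := sub_ne_zero.mpr hx
    have hD' : lrvc_X C x₁ - lrvc_X C x₂ = (↑C.u⁻¹ : F) ^ 2 * (x₁ - x₂) := by
      simp only [lrvc_X]; ring
    have hN : lrvc_Y C x₁ y₁ - lrvc_Y C x₂ y₂ =
        (↑C.u⁻¹ : F) ^ 3 * ((y₁ - y₂) - C.s * (x₁ - x₂)) := by
      simp only [lrvc_Y]; ring
    rw [hD', hN]
    field_simp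

theorem lrvc_some_congr {W' : Affine F} {x y x' y' : F} (h : W'.Nonsingular x y)
    (h' : W'.Nonsingular x' y') (hx : x' = x) (hy : y' = y) :
    (Point.some x' y' h' : W'.Point) = Point.some x y h := by
  subst hx hy; rfl

/-- The map on points induced by a change of variables; the target curve is any curve equal to
`C • W` (the equality is only used inside proofs). -/
def lrvc_map {W' : Affine F} (hW : C • W = W') (hΔ : W.Δ ≠ 0) : W.Point → W'.Point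
  | .zero => 0
  | .some x y h => .some (lrvc_X C x) (lrvc_Y C x y) (hW ▸ lrvc_nonsingular C W hΔ h)

theorem lrvc_map_zero {W' : Affine F} (hW : C • W = W') (hΔ : W.Δ ≠ 0) :
    lrvc_map C W hW hΔ 0 = 0 := rfl

theorem lrvc_map_some {W' : Affine F} (hW : C • W = W') (hΔ : W.Δ ≠ 0) {x y : F}
    (h : W.Nonsingular x y) :
    lrvc_map C W hW hΔ (.some x y h) =
      .some (lrvc_X C x) (lrvc_Y C x y) (hW ▸ lrvc_nonsingular C W hΔ h) := rfl

theorem lrvc_map_add {W' : Affine F} (hW : C • W = W') (hΔ : W.Δ ≠ 0) (P Q : W.Point) :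
    lrvc_map C W hW hΔ (P + Q) = lrvc_map C W hW hΔ P + lrvc_map C W hW hΔ Q := by
  subst hW
  rcases P with _ | ⟨x₁, y₁, h₁⟩
  · change lrvc_map C W rfl hΔ (0 + Q) = 0 + lrvc_map C W rfl hΔ Q
    rw [zero_add, zero_add]
  rcases Q with _ | ⟨x₂, y₂, h₂⟩
  · change lrvc_map C W rfl hΔ (Point.some x₁ y₁ h₁ + 0) =
      lrvc_map C W rfl hΔ (Point.some x₁ y₁ h₁) + 0
    rw [add_zero, add_zero]
  by_cases hxy : x₁ = x₂ ∧ y₁ = W.negY x₂ y₂
  · rw [add_of_Y_eq hxy.1 hxy.2, lrvc_map_zero, lrvc_map_some, lrvc_map_some,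
      add_of_Y_eq (congrArg _ hxy.1) (by rw [lrvc_negY, hxy.2, hxy.1])]
  · have hxy' : ¬(lrvc_X C x₁ = lrvc_X C x₂ ∧
        lrvc_Y C x₁ y₁ = (C • W).toAffine.negY (lrvc_X C x₂) (lrvc_Y C x₂ y₂)) := by
      rintro ⟨hx, hy⟩
      have hx0 := lrvc_X_injective C hx
      subst hx0
      rw [lrvc_negY] at hy
      exact hxy ⟨rfl, lrvc_Y_injective C x₁ hy⟩
    rw [add_some hxy, lrvc_map_some, lrvc_map_some, lrvc_map_some, add_some hxy']
    refine (lrvc_some_congr _ _ ?_ ?_).symm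
    · rw [lrvc_slope C W h₁.1 h₂.1 hxy, lrvc_addX]
    · rw [lrvc_slope C W h₁.1 h₂.1 hxy, lrvc_addY]

theorem lrvc_map_injective {W' : Affine F} (hW : C • W = W') (hΔ : W.Δ ≠ 0) :
    Function.Injective (lrvc_map C W hW hΔ) := by
  subst hW
  rintro (_ | ⟨x₁, y₁, h₁⟩) (_ | ⟨x₂, y₂, h₂⟩) h
  · rfl
  · exact absurd h.symm (Point.some_ne_zero _)
  · exact absurd h (Point.some_ne_zero _)
  · rw [lrvc_map_some, lrvc_map_some] at h
    have hx := lrvc_X_injective C (Point.some.inj h).1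
    subst hx
    have hy := lrvc_Y_injective C x₁ (Point.some.inj h).2
    subst hy
    rfl

theorem lrvc_map_surjective {W' : Affine F} (hW : C • W = W') (hΔ : W.Δ ≠ 0) :
    Function.Surjective (lrvc_map C W hW hΔ) := by
  subst hW
  rintro (_ | ⟨x', y', h'⟩)
  · exact ⟨0, rfl⟩
  · have huv : (↑C.u⁻¹ : F) * (↑C.u : F) = 1 := by
      rw [← Units.val_mul, inv_mul_cancel, Units.val_one]
    set x : F := (↑C.u : F) ^ 2 * x' + C.r with hx
    set y : F := (↑C.u : F) ^ 3 * y' + (↑C.u : F) ^ 2 * C.s * x' + C.t with hy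
    have hX : lrvc_X C x = x' := by
      simp only [lrvc_X, hx]
      linear_combination (x' * ((↑C.u⁻¹ : F) * (↑C.u : F) + 1)) * huv
    have hY : lrvc_Y C x y = y' := by
      simp only [lrvc_Y, hx, hy]
      linear_combination (y' * (((↑C.u⁻¹ : F) * (↑C.u : F)) ^ 2 + (↑C.u⁻¹ : F) * (↑C.u : F) + 1))
        * huv
    have hE : W.Equation x y := by
      rw [← lrvc_equation_iff C W, hX, hY]
      exact h'.1
    have hN : W.Nonsingular x y := (W.equation_iff_nonsingular_of_Δ_ne_zero hΔ).mp hE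
    refine ⟨.some x y hN, ?_⟩
    rw [lrvc_map_some]
    exact lrvc_some_congr _ _ hX hY

end field

section galois

local notation "Qbar" => AlgebraicClosure ℚ

variable (E W₂ : WeierstrassCurve ℚ) (C₀ : VariableChange ℚ)

/-- The change of variables over `ℚ̄`. -/
theorem lrvc_baseChange_eq (hC : C₀ • E = W₂) :
    (C₀.map (algebraMap ℚ Qbar)) • (E⁄Qbar) = (W₂⁄Qbar) := by
  show (C₀.map (algebraMap ℚ Qbar)) • (E.map (algebraMap ℚ Qbar)) = W₂.map (algebraMap ℚ Qbar)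
  rw [map_variableChange, hC]

theorem lrvc_baseChange_Δ (hΔ : E.Δ ≠ 0) : (E⁄Qbar).Δ ≠ 0 := by
  show (E.map (algebraMap ℚ Qbar)).Δ ≠ 0
  rw [WeierstrassCurve.map_Δ]
  simpa using hΔ

theorem lrvc_X_smul (σ : Qbar ≃ₐ[ℚ] Qbar) (x : Qbar) :
    σ (lrvc_X (C₀.map (algebraMap ℚ Qbar)) x) = lrvc_X (C₀.map (algebraMap ℚ Qbar)) (σ x) := by
  simp only [lrvc_X, VariableChange.map, Units.coe_map_inv, MonoidHom.coe_coe, map_mul, map_pow,
    map_sub, AlgEquiv.commutes]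

theorem lrvc_Y_smul (σ : Qbar ≃ₐ[ℚ] Qbar) (x y : Qbar) :
    σ (lrvc_Y (C₀.map (algebraMap ℚ Qbar)) x y) =
      lrvc_Y (C₀.map (algebraMap ℚ Qbar)) (σ x) (σ y) := by
  simp only [lrvc_Y, VariableChange.map, Units.coe_map_inv, MonoidHom.coe_coe, map_mul, map_pow,
    map_sub, AlgEquiv.commutes]

/-- The isomorphism `E(ℚ̄) → W₂(ℚ̄)` of a change of variables defined over `ℚ`. -/
noncomputable def lrvc_mapQ (hC : C₀ • E = W₂) (hΔ : E.Δ ≠ 0) :
    (E⁄Qbar).Point → (W₂⁄Qbar).Point :=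
  lrvc_map (C₀.map (algebraMap ℚ Qbar)) (E⁄Qbar) (lrvc_baseChange_eq E W₂ C₀ hC)
    (lrvc_baseChange_Δ E hΔ)

theorem lrvc_mapQ_add (hC : C₀ • E = W₂) (hΔ : E.Δ ≠ 0) (P Q : (E⁄Qbar).Point) :
    lrvc_mapQ E W₂ C₀ hC hΔ (P + Q) = lrvc_mapQ E W₂ C₀ hC hΔ P + lrvc_mapQ E W₂ C₀ hC hΔ Q :=
  lrvc_map_add _ _ _ _ P Q

theorem lrvc_mapQ_zero (hC : C₀ • E = W₂) (hΔ : E.Δ ≠ 0) : lrvc_mapQ E W₂ C₀ hC hΔ 0 = 0 := rfl

theorem lrvc_mapQ_bijective (hC : C₀ • E = W₂) (hΔ : E.Δ ≠ 0) :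
    Function.Bijective (lrvc_mapQ E W₂ C₀ hC hΔ) :=
  ⟨lrvc_map_injective _ _ _ _, lrvc_map_surjective _ _ _ _⟩

/-- Galois equivariance. -/
theorem lrvc_mapQ_smul (hC : C₀ • E = W₂) (hΔ : E.Δ ≠ 0) (σ : Qbar ≃ₐ[ℚ] Qbar)
    (P : (E⁄Qbar).Point) :
    lrvc_mapQ E W₂ C₀ hC hΔ (σ • P) = σ • lrvc_mapQ E W₂ C₀ hC hΔ P := by
  rcases P with _ | ⟨x, y, h⟩
  · rfl
  · rw [algEquiv_smul_def, algEquiv_smul_def, Point.map_some]
    unfold lrvc_mapQ
    rw [lrvc_map_some, lrvc_map_some, Point.map_some]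
    exact lrvc_some_congr _ _ (lrvc_X_smul C₀ σ x).symm (lrvc_Y_smul C₀ σ x y).symm

/-- The additive homomorphism. -/
noncomputable def lrvc_homQ (hC : C₀ • E = W₂) (hΔ : E.Δ ≠ 0) :
    (E⁄Qbar).Point →+ (W₂⁄Qbar).Point where
  toFun := lrvc_mapQ E W₂ C₀ hC hΔ
  map_zero' := rfl
  map_add' := lrvc_mapQ_add E W₂ C₀ hC hΔ

/-- **Irreducibility is invariant under changes of variables over `ℚ`.** -/
theorem lrvc_irreducible_of_variableChange (hC : C₀ • E = W₂) (hΔ : E.Δ ≠ 0) (p : ℕ)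
    (hirr : GaloisRepIsIrreducible (K := Qbar) ℚ E p) :
    GaloisRepIsIrreducible (K := Qbar) ℚ W₂ p := by
  set f := lrvc_homQ E W₂ C₀ hC hΔ with hf
  have hfinj : Function.Injective f := (lrvc_mapQ_bijective E W₂ C₀ hC hΔ).1
  have hfsurj : Function.Surjective f := (lrvc_mapQ_bijective E W₂ C₀ hC hΔ).2
  have hfσ : ∀ (σ : Qbar ≃ₐ[ℚ] Qbar) (P : (E⁄Qbar).Point), f (σ • P) = σ • f P :=
    lrvc_mapQ_smul E W₂ C₀ hC hΔ
  -- the induced map on `p`-torsion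
  have hmem : ∀ x : Submodule.torsionBy ℤ (E⁄Qbar).Point p,
      f (x : (E⁄Qbar).Point) ∈ Submodule.torsionBy ℤ (W₂⁄Qbar).Point p := by
    intro x
    have hx := x.2
    rw [Submodule.mem_torsionBy_iff] at hx ⊢
    rw [← map_zsmul, hx, _root_.map_zero]
  let g0 : Submodule.torsionBy ℤ (E⁄Qbar).Point p →+ Submodule.torsionBy ℤ (W₂⁄Qbar).Point p :=
    { toFun := fun x => ⟨f x, hmem x⟩
      map_zero' := Subtype.ext (_root_.map_zero f)
      map_add' := fun x y => Subtype.ext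
        (map_add f (x : (E⁄Qbar).Point) (y : (E⁄Qbar).Point)) }
  let g : Submodule.torsionBy ℤ (E⁄Qbar).Point p →ₗ[ZMod p]
      Submodule.torsionBy ℤ (W₂⁄Qbar).Point p := g0.toZModLinearMap p
  have hg : ∀ x, ((g x : Submodule.torsionBy ℤ (W₂⁄Qbar).Point p) : (W₂⁄Qbar).Point) =
      f (x : (E⁄Qbar).Point) := fun x => rfl
  have hginj : Function.Injective g := by
    intro x y hxy
    apply Subtype.ext
    apply hfinj
    rw [← hg, ← hg, hxy]
  have hgsurj : Function.Surjective g := by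
    intro y
    obtain ⟨P, hP⟩ := hfsurj (y : (W₂⁄Qbar).Point)
    have hPmem : P ∈ Submodule.torsionBy ℤ (E⁄Qbar).Point p := by
      have hy := y.2
      rw [Submodule.mem_torsionBy_iff] at hy ⊢
      apply hfinj
      rw [map_zsmul, hP, hy, _root_.map_zero]
    exact ⟨⟨P, hPmem⟩, Subtype.ext hP⟩
  have hgσ : ∀ (σ : Qbar ≃ₐ[ℚ] Qbar) (x : Submodule.torsionBy ℤ (E⁄Qbar).Point p),
      g (σ • x) = σ • g x := by
    intro σ x
    apply Subtype.ext
    exact hfσ σ x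
  obtain ⟨hnt, hsub⟩ := hirr
  refine ⟨?_, ?_⟩
  · have := hnt
    exact hginj.nontrivial
  · intro N hN
    have hN' : IsGaloisStable (K := Qbar) ℚ (N.comap g) := by
      intro σ x hx
      rw [Submodule.mem_comap] at hx ⊢
      rw [hgσ]
      exact hN σ _ hx
    rcases hsub (N.comap g) hN' with h | h
    · left
      rw [eq_bot_iff]
      intro y hy
      obtain ⟨x, rfl⟩ := hgsurj y
      have hx : x ∈ N.comap g := hy
      rw [h, Submodule.mem_bot] at hx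
      rw [hx, _root_.map_zero]
      exact Submodule.zero_mem _
    · right
      rw [eq_top_iff]
      intro y _
      obtain ⟨x, rfl⟩ := hgsurj y
      have hx : x ∈ N.comap g := by rw [h]; exact Submodule.mem_top
      exact hx

end galois

section model

local notation "Qbar" => AlgebraicClosure ℚ

variable {E : WeierstrassCurve ℚ} [E.IsElliptic] {W : WeierstrassCurve ℤ}

/-- An integral model of an elliptic curve has nonzero discriminant. -/
theorem lrvc_Δ_ne_zero (hW : W.IsIntegralModelOf E) : W.Δ ≠ 0 := by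
  obtain ⟨C, hC⟩ := hW
  intro h0
  have h1 : (W.map (Int.castRingHom ℚ)).Δ = 0 := by
    rw [WeierstrassCurve.map_Δ, h0, _root_.map_zero]
  rw [← hC] at h1
  exact lrvc_Δ C E E.isUnit_Δ.ne_zero h1

/-- **[VC]** irreducibility of `E[p]` passes to an integral model. -/
theorem lrvc_modRepIsIrreducible (hW : W.IsIntegralModelOf E) {p : ℕ}
    (hirr : GaloisRepIsIrreducible (K := Qbar) ℚ E p) : W.ModRepIsIrreducible p := by
  obtain ⟨C, hC⟩ := hW
  exact lrvc_irreducible_of_variableChange E _ C hC E.isUnit_Δ.ne_zero p hirr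

end model

end Fermat.Agent.LR
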