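/-
LR node (v*) NON-EISENSTEIN, file (6): the statements in the shape of S41.

* `lrv_nonEis_model` : `E / ℚ` elliptic, `W` an integral model, `E[p]` irreducible, `p` odd: for
  every finite `S` there is a good prime `ℓ ∉ S`, `ℓ ≠ p`, with `a_ℓ(W) ≢ ℓ + 1 mod p`;
* `lrv_int_mem_iff`  : for a maximal ideal `𝔪 ∋ p` of `ℤ̄` an integer lies in `𝔪` iff `p` divides it;
* `lrv_nonEis_cong`  : with the congruence hypothesis `hcong` of S41: a prime `ℓ ∉ S`, `ℓ ∤ N`,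
  `ℓ ≠ p`, good, such that `a_ℓ(f) - (ℓ + 1) ∉ 𝔪` ("`𝔪` is not Eisenstein").

Owner: helper22.  Prefix `lrv_`.
-/
import Fermat.Agent.LR.NonEis.Main
import Fermat.Agent.LR.NonEis.VarChange

set_option autoImplicit false

namespace Fermat.Agent.LR

open WeierstrassCurve WeierstrassCurve.Affine.Point

/-- **(v\*)** for an integral model of an elliptic curve over `ℚ`. -/
theorem lrv_nonEis_model (E : WeierstrassCurve ℚ) [E.IsElliptic] {W : WeierstrassCurve ℤ}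
    (hW : W.IsIntegralModelOf E) {p : ℕ} (hp : p.Prime) (hp2 : p ≠ 2)
    (hirr : GaloisRepIsIrreducible (K := AlgebraicClosure ℚ) ℚ E p) (S : Finset ℕ) :
    ∃ ℓ : ℕ, ℓ.Prime ∧ W.IsGoodPrimeFor ℓ ∧ ℓ ∉ S ∧ ℓ ≠ p ∧
      ¬ (p : ℤ) ∣ (ℓ : ℤ) + 1 - W.apOfModel ℓ :=
  lrv_exists_nonEis_prime W (lrvc_Δ_ne_zero hW) hp hp2 (lrvc_modRepIsIrreducible hW hirr) S

/-- An integer lies in a maximal ideal over `p` iff `p` divides it. -/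
theorem lrv_int_mem_iff {R : Type*} [CommRing R] {𝔪 : Ideal R} (hmax : 𝔪.IsMaximal) {p : ℕ}
    (hp : p.Prime) (hpm : (p : R) ∈ 𝔪) (n : ℤ) : (n : R) ∈ 𝔪 ↔ (p : ℤ) ∣ n := by
  constructor
  · intro hn
    by_contra hnd
    have hcop : IsCoprime (p : ℤ) n :=
      (Int.isCoprime_iff_gcd_eq_one).mpr
        ((Nat.Prime.coprime_iff_not_dvd hp).mpr (by
          intro h
          exact hnd (Int.natCast_dvd.mpr h)))
    obtain ⟨a, b, hab⟩ := hcop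
    have h1 : ((a * p + b * n : ℤ) : R) ∈ 𝔪 := by
      push_cast
      exact 𝔪.add_mem (𝔪.mul_mem_left _ hpm) (𝔪.mul_mem_left _ hn)
    rw [hab] at h1
    apply hmax.ne_top
    rw [Ideal.eq_top_iff_one]
    simpa using h1
  · rintro ⟨k, rfl⟩
    push_cast
    exact 𝔪.mul_mem_right _ hpm

/-- **(v\*)** with the congruence hypothesis of S41: `𝔪` is not Eisenstein. -/
theorem lrv_nonEis_cong (E : WeierstrassCurve ℚ) [E.IsElliptic] {W : WeierstrassCurve ℤ}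
    (hW : W.IsIntegralModelOf E) {p N : ℕ} (hp : p.Prime) (hp2 : p ≠ 2) (hN : 0 < N)
    (hirr : GaloisRepIsIrreducible (K := AlgebraicClosure ℚ) ℚ E p)
    (f : CuspForm (CongruenceSubgroup.Gamma0 N) 2) (𝔪 : Ideal (integralClosure ℤ ℂ))
    (hmax : 𝔪.IsMaximal) (hpm : (p : integralClosure ℤ ℂ) ∈ 𝔪)
    (hcong : ∀ ℓ : ℕ, ℓ.Prime → W.IsGoodPrimeFor ℓ → ¬ ℓ ∣ N → ℓ ≠ p →
      ∃ a : integralClosure ℤ ℂ, (a : ℂ) = ModularFormClass.qCoeff f ℓ ∧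
        a - ((W.apOfModel ℓ : ℤ) : integralClosure ℤ ℂ) ∈ 𝔪)
    (S : Finset ℕ) :
    ∃ ℓ : ℕ, ℓ.Prime ∧ W.IsGoodPrimeFor ℓ ∧ ℓ ∉ S ∧ ¬ ℓ ∣ N ∧ ℓ ≠ p ∧
      ∃ a : integralClosure ℤ ℂ, (a : ℂ) = ModularFormClass.qCoeff f ℓ ∧
        a - ((ℓ : integralClosure ℤ ℂ) + 1) ∉ 𝔪 := by
  obtain ⟨ℓ, hℓ, hgood, hℓS, hℓp, hnd⟩ :=
    lrv_nonEis_model E hW hp hp2 hirr (S ∪ N.primeFactors)
  have hℓS' : ℓ ∉ S := fun h => hℓS (Finset.mem_union_left _ h)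
  have hℓN : ¬ ℓ ∣ N := fun h =>
    hℓS (Finset.mem_union_right _ (Nat.mem_primeFactors.mpr ⟨hℓ, h, hN.ne'⟩))
  obtain ⟨a, ha, hcg⟩ := hcong ℓ hℓ hgood hℓN hℓp
  refine ⟨ℓ, hℓ, hgood, hℓS', hℓN, hℓp, a, ha, fun hmem => hnd ?_⟩
  rw [← lrv_int_mem_iff hmax hp hpm]
  have h2 : (((ℓ : ℤ) + 1 - W.apOfModel ℓ : ℤ) : integralClosure ℤ ℂ) =
      (a - ((W.apOfModel ℓ : ℤ) : integralClosure ℤ ℂ)) -
        (a - ((ℓ : integralClosure ℤ ℂ) + 1)) := by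
    push_cast
    ring
  rw [h2]
  exact 𝔪.sub_mem hcg hmem

end Fermat.Agent.LR
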